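import Fermat.Agent.KunenMartin.Rank
import Fermat.Agent.SilverDichotomy.Category

/-!
# Boundedness

An analytic set of well-founded relations on the natural numbers has bounded ranks, so the set of
well-orders is coanalytic but not analytic.
-/

set_option autoImplicit false

namespace FA.KunenMartin

open Set Topology MeasureTheory Ordinal Cardinal
open scoped InitialSeg

/-- The relation coded by a point of Cantor space. -/
def relOf (a : ℕ × ℕ → Bool) (m n : ℕ) : Prop :=
  a (m, n) = true

/-- The codes of well-founded relations. -/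
def wellFoundedCodes : Set (ℕ × ℕ → Bool) :=
  {a | WellFounded (relOf a)}

/-- The codes of well-orders. -/
def wellOrderCodes : Set (ℕ × ℕ → Bool) :=
  {a | IsWellOrder ℕ (relOf a)}

theorem wellOrderCodes_subset : wellOrderCodes ⊆ wellFoundedCodes :=
  fun _ h => h.toIsWellFounded.wf

/-- **Boundedness.** An analytic set of well-founded relations has bounded ranks. -/
theorem exists_bound_of_analyticSet {A : Set (ℕ × ℕ → Bool)} (hA : AnalyticSet A)
    (hsub : A ⊆ wellFoundedCodes) :
    ∃ β < (ω₁ : Ordinal.{0}), ∀ a, ∀ ha : a ∈ A, ∀ n, ((hsub ha).apply n).rank ≤ β := by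
  have : PolishSpace (ℕ × ℕ → Bool) := ⟨⟩
  let r : (ℕ × ℕ → Bool) × ℕ → (ℕ × ℕ → Bool) × ℕ → Prop := fun p q =>
    p.1 = q.1 ∧ q.1 ∈ A ∧ relOf q.1 p.2 q.2
  have han : AnalyticSet {p : ((ℕ × ℕ → Bool) × ℕ) × ((ℕ × ℕ → Bool) × ℕ) | r p.1 p.2} := by
    have hAn : ∀ e : ℕ × ℕ, AnalyticSet (A ∩ {a | a e = true}) := fun e => by
      have hcl : IsClosed {a : ℕ × ℕ → Bool | a e = true} :=
        isClosed_eq (continuous_apply e) continuous_const
      rw [inter_eq_iInter]
      exact AnalyticSet.iInter fun b => by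
        cases b
        exacts [hcl.analyticSet, hA]
    convert AnalyticSet.iUnion fun e : ℕ × ℕ => (hAn e).image_of_continuous
      (f := fun a => ((a, e.1), (a, e.2))) (by fun_prop) using 1
    ext ⟨⟨a, m⟩, ⟨a', n⟩⟩
    simp only [mem_iUnion, mem_image, mem_inter_iff, Prod.mk.injEq, mem_ofPred_eq, r, relOf]
    constructor
    · rintro ⟨rfl, h1, h2⟩
      exact ⟨(m, n), a, ⟨h1, h2⟩, ⟨rfl, rfl⟩, rfl, rfl⟩
    · rintro ⟨⟨m', n'⟩, b, ⟨h1, h2⟩, ⟨rfl, rfl⟩, rfl, rfl⟩
      exact ⟨rfl, h1, h2⟩
  have hwf : WellFounded r := ⟨fun ⟨a, n⟩ => by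
    by_cases ha : a ∈ A
    · induction n using (hsub ha).induction with
      | _ n ih =>
        refine ⟨_, fun ⟨a', m⟩ h => ?_⟩
        obtain rfl : a' = a := h.1
        exact ih m h.2.2
    · exact ⟨_, fun q h => absurd h.2.1 ha⟩⟩
  obtain ⟨β, hβ, hle⟩ := exists_rank_bound han hwf
  refine ⟨β, hβ, fun a ha n => le_trans ?_ (hle (a, n))⟩
  induction n using (hsub ha).induction with
  | _ n ih =>
    rw [Acc.rank_eq]
    exact Ordinal.iSup_le fun m => Order.succ_le_of_lt ((ih m.1 m.2).trans_lt
      (Acc.rank_lt_of_rel (hwf.apply (a, n)) (a := (a, m.1)) ⟨rfl, ha, m.2⟩))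

/-- Every countable ordinal is the rank of a point in a well-order of the natural numbers. -/
theorem exists_wellOrder_rank {o : Ordinal.{0}} (ho : o < ω₁) :
    ∃ a, ∃ ha : a ∈ wellOrderCodes, ∃ n, ((wellOrderCodes_subset ha).apply n).rank = o := by
  classical
  let γ := max ω (Order.succ o)
  have hγ : γ < ω₁ := max_lt omega0_lt_omega_one ((isSuccLimit_omega 1).succ_lt ho)
  have hc : #γ.ToType = ℵ₀ := by
    rw [mk_toType]
    refine le_antisymm ?_ (aleph0_le_card.2 (le_max_left _ _))
    by_contra! h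
    exact (lt_omega_iff_card_lt.1 hγ).not_ge (aleph_one_le_iff.2 h)
  obtain ⟨e⟩ : Nonempty (ℕ ≃ γ.ToType) := Cardinal.eq.1 (mk_nat.trans hc.symm)
  let a : ℕ × ℕ → Bool := fun p => decide (e p.1 < e p.2)
  have hrel : ∀ m n, relOf a m n ↔ e m < e n := fun m n => decide_eq_true_iff
  have : IsWellOrder γ.ToType (· < ·) := { }
  let f : relOf a ↪r (· < · : γ.ToType → γ.ToType → Prop) :=
    ⟨e.toEmbedding, fun {m n} => (hrel m n).symm⟩
  have : IsWellOrder ℕ (relOf a) := f.isWellOrder
  refine ⟨a, this, e.symm (Ordinal.enum (· < ·) ⟨o, ?_⟩), ?_⟩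
  · show o < typeLT γ.ToType
    rw [type_toType]
    exact (Order.lt_succ o).trans_le (le_max_right _ _)
  · let g : relOf a ≼i (· < · : γ.ToType → γ.ToType → Prop) :=
      RelIso.toInitialSeg ⟨e, fun {m n} => (hrel m n).symm⟩
    refine (congrFun (IsWellFounded.rank_eq_typein (relOf a)) _).trans ?_
    rw [← typein_apply g]
    show typein (· < ·) (e (e.symm _)) = o
    rw [e.apply_symm_apply, typein_enum]

/-- **The well-orders are not analytic**, nor is any larger set of well-founded relations. -/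
theorem not_analyticSet_of_wellOrderCodes_subset {A : Set (ℕ × ℕ → Bool)}
    (h₁ : wellOrderCodes ⊆ A) (h₂ : A ⊆ wellFoundedCodes) : ¬AnalyticSet A := fun hA => by
  obtain ⟨β, hβ, hle⟩ := exists_bound_of_analyticSet hA h₂
  obtain ⟨a, ha, n, hn⟩ := exists_wellOrder_rank ((isSuccLimit_omega 1).succ_lt hβ)
  exact (Order.lt_succ β).not_ge (hn ▸ hle a (h₁ ha) n)

/-- The codes with an infinite descending sequence form an analytic set. -/
theorem analyticSet_compl_wellFoundedCodes : AnalyticSet wellFoundedCodesᶜ := by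
  have : PolishSpace (ℕ × ℕ → Bool) := ⟨⟩
  have : PolishSpace (ℕ → ℕ) := ⟨⟩
  have heval : Continuous fun p : (ℕ × ℕ → Bool) × (ℕ × ℕ) => p.1 p.2 :=
    continuous_prod_of_discrete_right.2 continuous_apply
  have hcl : IsClosed {p : (ℕ × ℕ → Bool) × (ℕ → ℕ) | ∀ k, p.1 (p.2 (k + 1), p.2 k) = true} := by
    simp only [ofPred_forall]
    exact isClosed_iInter fun k => isClosed_eq (heval.comp (continuous_fst.prodMk
      (((continuous_apply (k + 1)).comp continuous_snd).prodMk
        ((continuous_apply k).comp continuous_snd)))) continuous_const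
  convert hcl.analyticSet.image_of_continuous continuous_fst using 1
  ext a
  simp [wellFoundedCodes, wellFounded_iff_isEmpty_descending_chain, relOf]

/-- The complement of the well-orders is analytic. -/
theorem analyticSet_compl_wellOrderCodes : AnalyticSet wellOrderCodesᶜ := by
  have : PolishSpace (ℕ × ℕ → Bool) := ⟨⟩
  have hcl : ∀ e : ℕ × ℕ, IsClosed {a : ℕ × ℕ → Bool |
      a e = false ∧ a e.swap = false ∧ e.1 ≠ e.2} := fun e =>
    (isClosed_eq (continuous_apply e) continuous_const).inter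
      ((isClosed_eq (continuous_apply e.swap) continuous_const).inter isClosed_const)
  have e : wellOrderCodesᶜ = ⋃ o : Option (ℕ × ℕ), o.elim wellFoundedCodesᶜ fun e =>
      {a | a e = false ∧ a e.swap = false ∧ e.1 ≠ e.2} := by
    ext a
    simp only [mem_compl_iff, mem_iUnion, Option.exists, Option.elim_none, Option.elim_some,
      mem_ofPred_eq, Prod.exists, Prod.swap_prod_mk]
    constructor
    · intro h
      by_contra! hno
      refine h (@IsWellOrder.mk ℕ (relOf a) ⟨hno.1⟩ ⟨fun m n h1 h2 => hno.2 m n ?_ ?_⟩)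
      exacts [Bool.eq_false_iff.2 h1, Bool.eq_false_iff.2 h2]
    · rintro (h | ⟨m, n, h1, h2, hne⟩) ha
      · exact h (wellOrderCodes_subset ha)
      · exact hne (ha.toTrichotomous.trichotomous m n (Bool.eq_false_iff.1 h1)
          (Bool.eq_false_iff.1 h2))
  rw [e]
  refine AnalyticSet.iUnion fun o => ?_
  cases o with
  | none => exact analyticSet_compl_wellFoundedCodes
  | some p => exact (hcl p).analyticSet

end FA.KunenMartin
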