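import Mathlib.MeasureTheory.Constructions.Polish.Basic
import Mathlib.SetTheory.Ordinal.Rank
import Mathlib.SetTheory.Cardinal.Aleph

/-!
# The theorem of Kunen and Martin for analytic relations

The finite approximations of descending chains in an analytic well-founded relation form a
countable well-founded tree, whose rank bounds the rank of the relation.
-/

set_option autoImplicit false

universe u

namespace FA.KunenMartin

open Set Topology Filter MeasureTheory Ordinal Cardinal

/-- In a countable type ranks are countable ordinals. -/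
theorem rank_lt_omega_one {C : Type u} [Countable C] {r : C → C → Prop} {c : C} (hc : Acc r c) :
    hc.rank < ω₁ := by
  by_contra! hle
  choose b hb hbo using fun o : Iio (ω₁ : Ordinal.{u}) =>
    Acc.mem_range_rank_of_le hc ((show o.1 < ω₁ from o.2).le.trans hle)
  have hinj : Function.Injective b := fun o o' he => Subtype.ext <| by
    rw [← hbo o, ← hbo o']
    congr
  have hcount : Countable (Iio (ω₁ : Ordinal.{u})) := hinj.countable
  have h := Cardinal.mk_le_aleph0 (α := Iio (ω₁ : Ordinal.{u}))
  rw [Cardinal.mk_Iio_ordinal, card_omega, lift_le_aleph0] at h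
  exact (aleph_one_le_iff.1 le_rfl).not_ge h

variable {X : Type u} [TopologicalSpace X]

/-- The codes: a length and that many approximations of witnesses. -/
abbrev Node : Type :=
  Σ n : ℕ, Fin n → Fin n → ℕ

/-- Witnesses of a descending chain. -/
def Compatible (φ : (ℕ → ℕ) → X × X) {n : ℕ} (w : Fin n → ℕ → ℕ) : Prop :=
  ∀ i j : Fin n, (j : ℕ) = i + 1 → (φ (w j)).2 = (φ (w i)).1

/-- The approximation of witnesses. -/
def code {n : ℕ} (w : Fin n → ℕ → ℕ) : Node :=
  ⟨n, fun i j => w i j⟩

/-- One step down in the tree: witnesses of a longer chain agree with the code. -/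
def Child (φ : (ℕ → ℕ) → X × X) (q p : ULift.{u} Node) : Prop :=
  ∃ (n : ℕ) (w : Fin (n + 1) → ℕ → ℕ), Compatible φ w ∧ q.down = code w ∧
    p.down = code (fun i : Fin n => w i.castSucc)

/-- A code extends to witnesses whose entries it gives. -/
theorem code_eq_iff {n m : ℕ} {w : Fin n → ℕ → ℕ} {v : Fin m → ℕ → ℕ} :
    code w = code v ↔ n = m ∧ ∀ (i j : ℕ) (hi : i < n) (hi' : i < m), j < n →
      w ⟨i, hi⟩ j = v ⟨i, hi'⟩ j := by
  constructor
  · intro h
    obtain rfl : n = m := congrArg Sigma.fst h
    have h2 := eq_of_heq (Sigma.mk.inj h).2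
    exact ⟨rfl, fun i j hi _ hj => congrFun (congrFun h2 ⟨i, hi⟩) ⟨j, hj⟩⟩
  · rintro ⟨rfl, h⟩
    exact congrArg (Sigma.mk n) (funext fun i => funext fun j => h i j i.2 i.2 j.2)

/-- **The tree of approximations is well-founded.** -/
theorem wellFounded_child [T2Space X] {φ : (ℕ → ℕ) → X × X} (hφ : Continuous φ)
    {r : X → X → Prop} (hwf : WellFounded r) (hr : ∀ w, r (φ w).1 (φ w).2) :
    WellFounded (Child φ) := by
  refine wellFounded_iff_isEmpty_descending_chain.2 ⟨fun ⟨f, hf⟩ => ?_⟩
  choose n w hw hq hp using hf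
  have hnext : ∀ k, n (k + 1) = n k + 1 := fun k =>
    (code_eq_iff.1 ((hp (k + 1)).symm.trans (hq k))).1
  have hn : ∀ k, n k = n 0 + k := fun k => by
    induction k with
    | zero => rfl
    | succ k ih => rw [hnext, ih, Nat.add_assoc]
  let W : ℕ → ℕ → ℕ := fun i j => w (i + j) ⟨i, by rw [hn]; omega⟩ j
  have hagree : ∀ k i j (hi : i < n k + 1), j < n k + 1 → ∀ m, k ≤ m →
      ∀ hi' : i < n m + 1, w m ⟨i, hi'⟩ j = w k ⟨i, hi⟩ j := by
    intro k i j hi hj m hm
    induction m, hm using Nat.le_induction with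
    | base => exact fun _ => rfl
    | succ m hm ih =>
      intro hi'
      have hkm : n k ≤ n m := by rw [hn k, hn m]; omega
      have := (code_eq_iff.1 ((hp (m + 1)).symm.trans (hq m))).2 i j
        (by rw [hnext]; omega) (by omega) (by rw [hnext]; omega)
      exact this.trans (ih (by omega))
  have hWval : ∀ i j m (hi : i < n m + 1), j < n m + 1 → w m ⟨i, hi⟩ j = W i j := by
    intro i j m hi hj
    have hij : i < n (i + j) + 1 ∧ j < n (i + j) + 1 := by rw [hn]; omega
    rcases le_total (i + j) m with h | h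
    · exact hagree (i + j) i j hij.1 hij.2 m h hi
    · exact (hagree m i j hi hj (i + j) h hij.1).symm
  have hlim : ∀ i, Tendsto (fun k => w (i + k) ⟨i, by rw [hn]; omega⟩) atTop (𝓝 (W i)) :=
    fun i => tendsto_pi_nhds.2 fun j => tendsto_const_nhds.congr'
      (eventually_atTop.2 ⟨j, fun k hk => (hWval i j _ _ (by rw [hn]; omega)).symm⟩)
  have hchain : ∀ i, (φ (W (i + 1))).2 = (φ (W i)).1 := fun i => by
    refine tendsto_nhds_unique (((hφ.snd).tendsto _).comp (hlim (i + 1))) ?_
    refine ((((hφ.fst).tendsto _).comp (hlim i)).comp (tendsto_add_atTop_nat 1)).congr fun k => ?_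
    have hidx : ∀ a b : ℕ, a = b → ∀ (c : ℕ) (ha : c < n a + 1) (hb : c < n b + 1),
        w a ⟨c, ha⟩ = w b ⟨c, hb⟩ := fun a b h c ha hb => by subst h; rfl
    simp only [Function.comp_apply]
    rw [hidx (i + (k + 1)) (i + 1 + k) (by omega) i _ (by rw [hn]; omega)]
    exact (hw _ ⟨i, _⟩ ⟨i + 1, _⟩ rfl).symm
  exact (wellFounded_iff_isEmpty_descending_chain.1 hwf).false
    ⟨fun i => (φ (W i)).2, fun i => by
      show r (φ (W (i + 1))).2 (φ (W i)).2
      rw [hchain]
      exact hr (W i)⟩

/-- **Kunen and Martin.** The ranks of an analytic well-founded relation are bounded below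
`ω₁`. -/
theorem exists_rank_bound [T2Space X] {r : X → X → Prop}
    (hr : AnalyticSet {p : X × X | r p.1 p.2}) (hwf : WellFounded r) :
    ∃ β < ω₁, ∀ x, (hwf.apply x).rank ≤ β := by
  rw [AnalyticSet] at hr
  rcases hr with he | ⟨φ, hφ, hrange⟩
  · refine ⟨0, omega_pos 1, fun x => ?_⟩
    rw [Acc.rank_eq]
    exact Ordinal.iSup_le fun y => absurd (he.le (show (y.1, x) ∈ _ from y.2)) (notMem_empty _)
  have hφr : ∀ w, r (φ w).1 (φ w).2 := fun w => hrange.le ⟨w, rfl⟩
  have hC := wellFounded_child hφ hwf hφr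
  refine ⟨(hC.apply ⟨code (Fin.elim0 : Fin 0 → ℕ → ℕ)⟩).rank, rank_lt_omega_one _, fun x => ?_⟩
  suffices key : ∀ (n : ℕ) (w : Fin n → ℕ → ℕ), Compatible φ w →
      (∀ i : Fin n, (i : ℕ) + 1 = n → (φ (w i)).1 = x) →
      (hwf.apply x).rank ≤ (hC.apply ⟨code w⟩).rank from
    key 0 Fin.elim0 (fun i => i.elim0) fun i => i.elim0
  induction x using hwf.induction with
  | _ x ih =>
    intro n w hw hlast
    rw [Acc.rank_eq]
    refine Ordinal.iSup_le fun y => ?_
    obtain ⟨v, hv⟩ := hrange.ge (show (y.1, x) ∈ {p : X × X | r p.1 p.2} from y.2)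
    let w' : Fin (n + 1) → ℕ → ℕ := Fin.snoc w v
    have hw' : Compatible φ w' := fun i j hij => by
      induction i using Fin.lastCases with
      | last => exact absurd j.2 (by simp only [Fin.val_last] at hij; omega)
      | cast i =>
        induction j using Fin.lastCases with
        | last =>
          simp only [w', Fin.snoc_last, Fin.snoc_castSucc]
          rw [hlast i (by simpa using hij.symm), hv]
        | cast j =>
          simp only [w', Fin.snoc_castSucc]
          exact hw i j (by simpa using hij)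
    refine (Order.succ_le_of_lt ((ih y.1 y.2 (n + 1) w' hw' fun i hi => ?_).trans_lt
      (Acc.rank_lt_of_rel (hC.apply ⟨code w⟩) (a := ⟨code w'⟩) ⟨n, w', hw', rfl, by simp [w']⟩)))
    obtain rfl : i = Fin.last n := Fin.ext (by simp only [Fin.val_last]; omega)
    simp only [w', Fin.snoc_last]
    rw [hv]

end FA.KunenMartin
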